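import Fermat.Agent.Ribet.H884.EisSpec
import Fermat.Agent.S37.H819.NormId
import Fermat.Agent.S29.H395.KummerCorr
import Fermat.Agent.Lib.FF398.Hecke

/-!
# Row 38, WALL-p, W-EIS leaf HECKE-FUN (`H884.HeckeFunStatement`)   (helper398)

For a prime `ℓ ∤ N` the formal Kronecker norm `S37.H400.kronNorm ℓ` preserves
`FF N = ℚ̄(X₀(N))` and is the function-level Hecke operator: `g := Nm_α(β f)`
(`S29.H395.heckeNorm`) has `t`-expansion `kronNorm ℓ f` (`S37.H819.normId`) and is a Kummer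
generator of `T_ℓ x` whenever `f` is one of `x` (`S29.H395.heckeOperatorBar_mk`, inputs
`Lib.FF398.heckeInputsAlong`).

* `heckeFun` : `H884.HeckeFunStatement` (verbatim).
-/

set_option autoImplicit false
set_option linter.style.haveILetI false
set_option linter.unusedSectionVars false
set_option synthInstance.maxHeartbeats 400000
set_option maxHeartbeats 1000000

noncomputable section

namespace Fermat.Agent.Ribet.H398

open ModularCurve AlgebraicCurve
open Fermat.Agent.S24 Fermat.Agent.Ribet.H884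

local notation "Q̄" => AlgebraicClosure ℚ

/-- The `t`-expansion of `Nm_α(β f)` is the formal Kronecker norm (`ℓ ∤ N` prime). -/
theorem coe_heckeNorm_eq_kronNorm (N ℓ : ℕ) [NeZero N] [NeZero ℓ] (hℓ : ℓ.Prime)
    (hℓN : ¬ ℓ ∣ N) (f : FF N) :
    ((Fermat.Agent.S29.H395.heckeNorm N ℓ f : FF N) : LaurentSeries Q̄)
      = Fermat.Agent.S37.H400.kronNorm ℓ (f : LaurentSeries Q̄) :=
  Fermat.Agent.S37.H819.normId N ℓ hℓ hℓN f

/-- `Nm_α(β f)` is a Kummer generator of `T_ℓ x` if `f` is a Kummer generator of `x`. -/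
theorem isKummerGen_heckeNorm (N : ℕ) [NeZero N] (ℓ : Nat.Primes) [NeZero (ℓ : ℕ)]
    (p : ℕ) (f : FF N) (x : JZero N) (hK : IsKummerGen N p f x) :
    IsKummerGen N p (Fermat.Agent.S29.H395.heckeNorm N ℓ f) (heckeOperatorBar N ℓ x) := by
  obtain ⟨hf0, D, rfl, hD⟩ := hK
  have hHI : HeckeInputsAlong Q̄ N ℓ := Fermat.Agent.Lib.FF398.heckeInputsAlong N ℓ
  obtain ⟨D', hD', hord⟩ := Fermat.Agent.S29.H395.heckeOperatorBar_mk N ℓ hHI D
  refine ⟨Fermat.Agent.S29.H395.heckeNorm_ne_zero N ℓ hHI hf0, D', hD'.symm, fun v => ?_⟩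
  exact (hord (p : ℤ) f hf0 (fun v => (hD v).symm) v).symm

/-- **Leaf HECKE-FUN of W-EIS** (`H884.HeckeFunStatement`, verbatim). -/
theorem heckeFun : HeckeFunStatement := by
  intro N _ ℓ _ hℓN f
  exact ⟨Fermat.Agent.S29.H395.heckeNorm N ℓ f,
    coe_heckeNorm_eq_kronNorm N ℓ ℓ.2 hℓN f,
    fun p x hK => isKummerGen_heckeNorm N ℓ p f x hK⟩

end Fermat.Agent.Ribet.H398

end
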